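import Mathlib

/-!
# Centres of valuation rings of the function field

A valuation ring of the function field containing the constants has a centre if the scheme is
universally closed, and at most one if it is separated.
-/

set_option autoImplicit false

noncomputable section

open CategoryTheory AlgebraicGeometry IsLocalRing

universe u

namespace FermatAgent.AV.Squeeze

variable {R : Type u} [CommRing R] {X : Scheme.{u}} [IsIntegral X]
  (f : X ⟶ Spec (CommRingCat.of R))

/-- The structure map of the function field of a scheme over `R`. -/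
def baseMap : R →+* X.functionField :=
  ((Scheme.ΓSpecIso (CommRingCat.of R)).inv ≫ f.appTop ≫
    X.presheaf.germ ⊤ (genericPoint X) trivial).hom

theorem fromSpecStalk_genericPoint_comp :
    X.fromSpecStalk (genericPoint X) ≫ f = Spec.map (CommRingCat.ofHom (baseMap f)) := by
  have h : f = X.toSpecΓ ≫ Spec.map ((Scheme.ΓSpecIso (CommRingCat.of R)).inv ≫ f.appTop) := by
    rw [Spec.map_comp, ← Scheme.toSpecΓ_naturality_assoc, toSpecΓ_SpecMap_ΓSpecIso_inv,
      Category.comp_id]
  conv_lhs => rw [h]
  rw [Scheme.fromSpecStalk_toSpecΓ_assoc, ← Spec.map_comp]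
  rfl

/-- A point is a centre of a valuation ring if its local ring is dominated by it. -/
def IsCentre (W : ValuationSubring X.functionField) (x : X) : Prop :=
  (∀ t : X.presheaf.stalk x, algebraMap _ X.functionField t ∈ W) ∧
    ∀ t ∈ maximalIdeal (X.presheaf.stalk x), algebraMap _ X.functionField t ∈ W.nonunits

variable {f}

/-- The comparison map from the local ring at a centre. -/
def centreHom {W : ValuationSubring X.functionField} {x : X} (h : IsCentre W x) :
    X.presheaf.stalk x ⟶ CommRingCat.of W :=
  CommRingCat.ofHom ((algebraMap (X.presheaf.stalk x) X.functionField).codRestrict W.toSubring h.1)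

theorem centreHom_comp {W : ValuationSubring X.functionField} {x : X} (h : IsCentre W x) :
    centreHom h ≫ CommRingCat.ofHom (algebraMap W X.functionField) =
      X.presheaf.stalkSpecializes ((genericPoint_spec X).specializes trivial) := rfl

theorem isLocalHom_centreHom {W : ValuationSubring X.functionField} {x : X} (h : IsCentre W x) :
    IsLocalHom (centreHom h).hom :=
  ((local_hom_TFAE _).out 3 0).mp fun t ht => by
    have := h.2 t ht
    rw [ValuationSubring.mem_nonunits_iff_exists_mem_maximalIdeal] at this
    obtain ⟨ha, hm⟩ := this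
    exact hm

omit [IsIntegral X] in
set_option backward.isDefEq.respectTransparency.types false in
theorem comp_closedPoint {A : CommRingCat.{u}} [IsLocalRing A] {z : X}
    (φ : X.presheaf.stalk z ⟶ A) [IsLocalHom φ.hom] :
    (Spec.map φ ≫ X.fromSpecStalk z) (closedPoint A) = z := by
  simp only [Scheme.Hom.comp_base, TopCat.coe_comp, Function.comp_apply, Spec_closedPoint,
    Scheme.fromSpecStalk_closedPoint]

omit [IsIntegral X] in
/-- A field point extends to a valuation subring containing the constants. -/
theorem exists_extension [UniversallyClosed f] {F : Type u} [Field F]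
    {P : Spec (CommRingCat.of F) ⟶ X} {c : R →+* F}
    (hP : P ≫ f = Spec.map (CommRingCat.ofHom c)) (W : ValuationSubring F) (hc : ∀ r, c r ∈ W) :
    ∃ l : Spec (CommRingCat.of W) ⟶ X,
      Spec.map (CommRingCat.ofHom (algebraMap W F)) ≫ l = P := by
  have hE : ValuativeCriterion.Existence f := by
    have h : UniversallyClosed f := inferInstance
    rw [UniversallyClosed.eq_valuativeCriterion] at h
    exact h.1
  have w : P ≫ f = Spec.map (CommRingCat.ofHom (algebraMap W F)) ≫
      Spec.map (CommRingCat.ofHom (c.codRestrict W.toSubring hc)) := by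
    rw [hP, ← Spec.map_comp]; rfl
  obtain ⟨l, hl, -⟩ := (hE
    { R := W, K := F, i₁ := P, i₂ := Spec.map (CommRingCat.ofHom (c.codRestrict W.toSubring hc)),
      commSq := ⟨w⟩ }).exists_lift
  exact ⟨l, hl⟩

omit [IsIntegral X] in
/-- Extensions of a field point to a valuation subring are unique. -/
theorem extension_unique [IsSeparated f] {F : Type u} [Field F] {W : ValuationSubring F}
    {P : Spec (CommRingCat.of F) ⟶ X} {l l' : Spec (CommRingCat.of W) ⟶ X}
    (hl : Spec.map (CommRingCat.ofHom (algebraMap W F)) ≫ l = P)
    (hl' : Spec.map (CommRingCat.ofHom (algebraMap W F)) ≫ l' = P) : l = l' := by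
  obtain ⟨b, hb⟩ := Spec.map_surjective (l ≫ f)
  obtain ⟨b', hb'⟩ := Spec.map_surjective (l' ≫ f)
  obtain rfl : b = b' := by
    have e : b ≫ CommRingCat.ofHom (algebraMap W F) = b' ≫ CommRingCat.ofHom (algebraMap W F) :=
      Spec.map_injective <| by
        rw [Spec.map_comp, Spec.map_comp, hb, hb', ← Category.assoc, ← Category.assoc, hl, hl']
    exact CommRingCat.hom_ext (RingHom.ext fun r => Subtype.ext (congrArg (fun g => g.hom r) e))
  let S : ValuativeCommSq f :=
    { R := W, K := F, i₁ := P, i₂ := Spec.map b,
      commSq := ⟨by rw [hb, ← hl, Category.assoc]⟩ }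
  exact congrArg (fun x : S.commSq.LiftStruct => x.l)
    ((IsSeparated.valuativeCriterion f S).elim ⟨l, hl, hb.symm⟩ ⟨l', hl', hb'.symm⟩)

variable (f)

/-- **Existence of centres** on a universally closed scheme. -/
theorem exists_centre [UniversallyClosed f] (W : ValuationSubring X.functionField)
    (hR : ∀ r, baseMap f r ∈ W) : ∃ x : X, IsCentre W x := by
  obtain ⟨l, hl⟩ := exists_extension (fromSpecStalk_genericPoint_comp f) W hR
  set x := l (closedPoint (CommRingCat.of W))
  set φ := Scheme.stalkClosedPointTo l
  have hφ : φ ≫ CommRingCat.ofHom (algebraMap W X.functionField) =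
      X.presheaf.stalkSpecializes ((genericPoint_spec X).specializes trivial) := by
    apply Spec.map_injective
    rw [← cancel_mono (X.fromSpecStalk x), Scheme.SpecMap_stalkSpecializes_fromSpecStalk,
      Spec.map_comp, Category.assoc, Scheme.Spec_stalkClosedPointTo_fromSpecStalk]
    exact hl
  have hφ' : ∀ t, algebraMap (X.presheaf.stalk x) X.functionField t = (φ.hom t : W).1 :=
    fun t => congrArg (fun g => g.hom t) hφ.symm
  refine ⟨x, fun t => hφ' t ▸ (φ.hom t).2, fun t ht => ?_⟩
  rw [ValuationSubring.mem_nonunits_iff_exists_mem_maximalIdeal, hφ']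
  exact ⟨(φ.hom t).2, map_nonunit φ.hom t ht⟩

/-- **Uniqueness of centres** on a separated scheme. -/
theorem centre_unique [IsSeparated f] {W : ValuationSubring X.functionField} {x y : X}
    (hx : IsCentre W x) (hy : IsCentre W y) : x = y := by
  have hι : ∀ {z : X} (h : IsCentre W z),
      Spec.map (CommRingCat.ofHom (algebraMap W X.functionField)) ≫
        Spec.map (centreHom h) ≫ X.fromSpecStalk z = X.fromSpecStalk (genericPoint X) :=
    fun {z} h => by
      rw [← Spec.map_comp_assoc, centreHom_comp h, Scheme.SpecMap_stalkSpecializes_fromSpecStalk]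
  have hc : ∀ {z : X} (h : IsCentre W z),
      (Spec.map (centreHom h) ≫ X.fromSpecStalk z) (closedPoint (CommRingCat.of W)) = z :=
    fun {z} h => by
      have := isLocalHom_centreHom h
      exact comp_closedPoint (centreHom h)
  rw [← hc hx, ← hc hy, extension_unique (f := f) (hι hx) (hι hy)]

end FermatAgent.AV.Squeeze
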