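import Mathlib
import Fermat.Agent.Curve.Integral

/-!
# The degree of a finite endomorphism from two-sided growth bounds

Abstract form: `F` is a function field over `k`, `O x` are its local rings, `s x` are local
equations of an effective divisor, and `φ` is a separable finite endomorphism of `F` which
pulls the divisor back to a multiple `w` of itself.
-/

set_option autoImplicit false

noncomputable section

namespace FermatAgent.AV.Squeeze

open Module Polynomial

universe uk uF uX

/-- Local rings of a function field together with local equations of an effective divisor. -/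
structure DivData (k : Type uk) (F : Type uF) [Field k] [Field F] [Algebra k F] where
  /-- the points -/
  X : Type uX
  /-- the local rings -/
  O : X → Subalgebra k F
  /-- the local equations -/
  s : X → F
  s_ne : ∀ x, s x ≠ 0
  s_mem : ∀ x, s x ∈ O x
  intClosed : ∀ x, ∀ z : F, IsIntegral (O x) z → z ∈ O x

variable {k : Type uk} {F : Type uF} [Field k] [Field F] [Algebra k F]

namespace DivData

variable (D : DivData.{uk, uF, uX} k F)

/-- The functions with poles bounded by `j` times the divisor. -/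
def L (j : ℕ) : Submodule k F where
  carrier := {z | ∀ x, z * D.s x ^ j ∈ D.O x}
  add_mem' := fun {a b} ha hb x => by rw [add_mul]; exact add_mem (ha x) (hb x)
  zero_mem' := fun x => by rw [zero_mul]; exact zero_mem _
  smul_mem' := fun r z hz x => by
    rw [smul_mul_assoc]; exact Subalgebra.smul_mem _ (hz x) r

theorem L_mono {i j : ℕ} (h : i ≤ j) : D.L i ≤ D.L j := fun z hz x => by
  rw [← Nat.add_sub_cancel' h, pow_add, ← mul_assoc]
  exact mul_mem (hz x) (pow_mem (D.s_mem x) _)

theorem one_mem_L (j : ℕ) : (1 : F) ∈ D.L j := fun x => by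
  rw [one_mul]; exact pow_mem (D.s_mem x) _

theorem mul_mem_L {i j : ℕ} {a b : F} (ha : a ∈ D.L i) (hb : b ∈ D.L j) :
    a * b ∈ D.L (i + j) := fun x => by
  rw [pow_add, mul_mul_mul_comm]; exact mul_mem (ha x) (hb x)

theorem pow_mem_L {i : ℕ} {a : F} (ha : a ∈ D.L i) (e : ℕ) : a ^ e ∈ D.L (e * i) := by
  induction e with
  | zero => simpa using D.one_mem_L 0
  | succ e ih => rw [pow_succ, Nat.succ_mul]; exact D.mul_mem_L ih ha

/-- The dimension of `L`. -/
def l (j : ℕ) : ℕ := finrank k (D.L j)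

/-- The data of an endomorphism pulling `c • D` back to `(c * w) • D`, up to a principal divisor. -/
structure Pull (φ : F →ₐ[k] F) (c w : ℕ) where
  /-- the map on points -/
  π : D.X → D.X
  map_O : ∀ x, ∀ z ∈ D.O (π x), φ z ∈ D.O x
  centre : ∀ Q, ∀ W : ValuationSubring F, (∀ z ∈ D.O Q, φ z ∈ W) →
    ∃ x, (∀ z ∈ D.O x, z ∈ W) ∧ φ (D.s Q / D.s (π x)) ∈ W
  /-- the function giving the linear equivalence -/
  h : F
  h_ne : h ≠ 0
  rel : ∀ x, φ (D.s (π x)) ^ c / (h * D.s x ^ (c * w)) ∈ D.O x ∧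
    h * D.s x ^ (c * w) / φ (D.s (π x)) ^ c ∈ D.O x

variable {D} {φ : F →ₐ[k] F} {c w : ℕ}

namespace Pull

theorem map_s_ne (P : D.Pull φ c w) (x : D.X) : φ (D.s (P.π x)) ≠ 0 :=
  (map_ne_zero φ).mpr (D.s_ne _)

/-- An element, multiplied by a constant of the image, has poles bounded by the pullback. -/
theorem exists_bound (P : D.Pull φ c w) [FiniteDimensional φ.fieldRange F]
    (gen : ∀ z : F, ∃ a : F, a ≠ 0 ∧ ∃ j, a ∈ D.L j ∧ a * z ∈ D.L j) (z : F) :
    ∃ a : F, a ≠ 0 ∧ ∃ J : ℕ, ∀ x, φ a * z * φ (D.s (P.π x)) ^ J ∈ D.O x := by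
  have hz : IsIntegral φ.fieldRange z := IsIntegral.of_finite _ z
  set p : F[X] := (minpoly φ.fieldRange z).map (algebraMap φ.fieldRange F) with hp
  have hc : ∀ i, ∃ e, φ e = p.coeff i := fun i => by
    rw [hp, coeff_map]
    exact AlgHom.mem_fieldRange.mp ((minpoly φ.fieldRange z).coeff i).2
  choose e he using hc
  choose A hA0 jA hA1 hA2 using gen
  set d := p.natDegree
  set a : F := ∏ i ∈ Finset.range d, A (e i)
  set J := ∑ i ∈ Finset.range d, jA (e i)
  have hprod : ∀ S : Finset ℕ, (∏ i ∈ S, A (e i)) ∈ D.L (∑ i ∈ S, jA (e i)) := fun S => by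
    induction S using Finset.cons_induction with
    | empty => simpa using D.one_mem_L 0
    | cons i S hi ih =>
      rw [Finset.prod_cons, Finset.sum_cons]; exact D.mul_mem_L (hA1 _) ih
  have hmono : p.Monic := (minpoly.monic hz).map _
  have hae : ∀ i < d, a ^ (d - i) * e i ∈ D.L ((d - i) * J) := fun i hi => by
    have hi' : i ∈ Finset.range d := Finset.mem_range.mpr hi
    have h1 : a * e i ∈ D.L J := by
      rw [show a * e i = A (e i) * e i * ∏ l ∈ (Finset.range d).erase i, A (e l) by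
        simp only [a]; rw [← Finset.mul_prod_erase _ _ hi']; ring]
      simp only [J]; rw [← Finset.add_sum_erase _ _ hi']
      exact D.mul_mem_L (hA2 _) (hprod _)
    obtain ⟨r, hr⟩ : ∃ r, d - i = r + 1 := ⟨d - i - 1, by omega⟩
    rw [hr, pow_succ, mul_assoc, Nat.succ_mul]
    exact D.mul_mem_L (D.pow_mem_L (hprod _) r) h1
  refine ⟨a, Finset.prod_ne_zero_iff.mpr fun i _ => hA0 _, J, fun x => D.intClosed x _ ?_⟩
  rw [mul_right_comm]
  refine FermatAgent.Curve.isIntegral_scaled_root (D.O x).toSubring hmono ?_ fun i hi => ?_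
  · rw [IsRoot, hp, eval_map]
    exact minpoly.aeval _ _
  · have := P.map_O x _ (hae i hi (P.π x))
    rw [map_mul, map_mul, map_pow, map_pow, he] at this
    show p.coeff i * (φ a * φ (D.s (P.π x)) ^ J) ^ (d - i) ∈ D.O x
    convert this using 1
    rw [mul_pow, ← pow_mul, mul_comm J]; ring

/-- A basis with poles bounded by a multiple of the pulled back divisor. -/
theorem exists_basis (P : D.Pull φ c w) [FiniteDimensional φ.fieldRange F] (hc : 0 < c)
    (gen : ∀ z : F, ∃ a : F, a ≠ 0 ∧ ∃ j, a ∈ D.L j ∧ a * z ∈ D.L j) :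
    ∃ (b : Basis (Fin (finrank φ.fieldRange F)) φ.fieldRange F) (K : ℕ),
      ∀ i x, b i * φ (D.s (P.π x)) ^ (c * K) ∈ D.O x := by
  set b₀ := finBasis φ.fieldRange F
  choose a ha J hJ using fun i => P.exists_bound gen (b₀ i)
  let u : Fin (finrank φ.fieldRange F) → (φ.fieldRange)ˣ := fun i =>
    Units.mk0 ⟨φ (a i), AlgHom.mem_fieldRange.mpr ⟨_, rfl⟩⟩
      fun h => (map_ne_zero φ).mpr (ha i) (congrArg Subtype.val h)
  refine ⟨b₀.unitsSMul u, ∑ i, J i, fun i x => ?_⟩
  have e : b₀.unitsSMul u i = φ (a i) * b₀ i := by rw [Basis.unitsSMul_apply]; rfl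
  have hle : J i ≤ c * ∑ i, J i :=
    (Finset.single_le_sum (f := J) (fun _ _ => Nat.zero_le _) (Finset.mem_univ i)).trans
      (Nat.le_mul_of_pos_left _ hc)
  rw [e, ← Nat.add_sub_cancel' hle, pow_add, ← mul_assoc]
  exact mul_mem (hJ i x) (pow_mem (P.map_O x _ (D.s_mem _)) _)

/-- Trace of a function with poles bounded by the pullback has poles bounded by the divisor. -/
theorem exists_trace (P : D.Pull φ c w) [FiniteDimensional φ.fieldRange F] {y : F} {j : ℕ}
    (hy : ∀ x, y * φ (D.s (P.π x)) ^ j ∈ D.O x) (a : F)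
    (ha : φ a = (Algebra.trace φ.fieldRange F y : F)) : a ∈ D.L j := by
  refine fun Q => D.intClosed Q _ ?_
  set R : Subring F := ((D.O Q).map φ).toSubring
  have hR : R ≤ φ.fieldRange.toSubfield.toSubring := fun z hz => by
    obtain ⟨v, -, rfl⟩ := hz
    exact AlgHom.mem_fieldRange.mpr ⟨v, rfl⟩
  have hy' : IsIntegral R (y * φ (D.s Q) ^ j) :=
      FermatAgent.Curve.isIntegralElem_of_forall_valuationSubring _ fun W hW => by
    have hQW : ∀ z ∈ D.O Q, φ z ∈ W := fun z hz => hW ⟨φ z, z, hz, rfl⟩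
    obtain ⟨x, hx, hx'⟩ := P.centre Q W hQW
    have e : y * φ (D.s Q) ^ j =
        y * φ (D.s (P.π x)) ^ j * φ (D.s Q / D.s (P.π x)) ^ j := by
      rw [map_div₀, mul_assoc, ← mul_pow, mul_div_cancel₀ _ (P.map_s_ne x)]
    rw [e]
    exact mul_mem (hx _ (hy x)) (pow_mem hx' j)
  let : Algebra R φ.fieldRange := (Subring.inclusion hR).toAlgebra
  have : IsScalarTower R φ.fieldRange F := IsScalarTower.of_algebraMap_eq fun _ => rfl
  have ht : IsIntegral R ((Algebra.trace φ.fieldRange F (y * φ (D.s Q) ^ j) : φ.fieldRange) : F) :=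
    (Algebra.isIntegral_trace (L := φ.fieldRange) hy').algebraMap
  have e : ((Algebra.trace φ.fieldRange F (y * φ (D.s Q) ^ j) : φ.fieldRange) : F) =
      φ (a * D.s Q ^ j) := by
    rw [map_mul φ, map_pow φ, ha, show y * φ (D.s Q) ^ j =
      (⟨φ (D.s Q) ^ j, pow_mem (AlgHom.mem_fieldRange.mpr ⟨_, rfl⟩) j⟩ : φ.fieldRange) • y from
        mul_comm _ _, map_smul, smul_eq_mul, mul_comm]
    rfl
  rw [e] at ht
  obtain ⟨p, hp, hpe⟩ := ht
  let ρ : D.O Q →+* R :=
    (φ.toRingHom.comp (D.O Q).val.toRingHom).codRestrict R fun z => ⟨z, z.2, rfl⟩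
  have hρ : Function.Surjective ρ := by
    rintro ⟨_, v, hv, rfl⟩
    exact ⟨⟨v, hv⟩, rfl⟩
  obtain ⟨q, hq, -, hqm⟩ :=
    lifts_and_degree_eq_and_monic ((mem_lifts p).mpr (Polynomial.map_surjective ρ hρ p)) hp
  refine ⟨q, hqm, φ.toRingHom.injective ?_⟩
  rw [map_zero, hom_eval₂]
  have := hpe
  rw [← hq, eval₂_map] at this
  exact this

theorem mul_le (P : D.Pull φ c w)
    [∀ j, FiniteDimensional k (D.L j)]
    {b : Basis (Fin (finrank φ.fieldRange F)) φ.fieldRange F} {K : ℕ}
    (hb : ∀ i x, b i * φ (D.s (P.π x)) ^ (c * K) ∈ D.O x) (m : ℕ) :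
    finrank φ.fieldRange F * D.l (c * m) ≤ D.l (c * w * (m + K)) := by
  let T : (Fin (finrank φ.fieldRange F) → D.L (c * m)) →ₗ[k] F :=
    ∑ i, (LinearMap.mulRight k (b i * P.h ^ (m + K))).comp
      (φ.toLinearMap.comp ((D.L (c * m)).subtype.comp (LinearMap.proj i)))
  have hT : ∀ f, T f = ∑ i, φ (f i : F) * (b i * P.h ^ (m + K)) := fun f => by
    simp [T, mul_assoc]
  have hmem : ∀ f, T f ∈ D.L (c * w * (m + K)) := fun f => by
    rw [hT]
    refine Submodule.sum_mem _ fun i _ => fun x => ?_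
    have h1 := mul_mem (P.map_O x _ ((f i).2 (P.π x))) (hb i x)
    have h2 := mul_mem h1 (pow_mem (P.rel x).2 (m + K))
    convert h2 using 1
    rw [map_mul, map_pow, pow_mul (D.s x), div_pow, mul_pow]
    have ht := pow_ne_zero c (P.map_s_ne x)
    rw [pow_mul, pow_mul, pow_mul (φ (D.s (P.π x))) c K, pow_add (φ (D.s (P.π x)) ^ c)]
    field_simp
  have hinj : Function.Injective (T.codRestrict _ hmem) := by
    refine (injective_iff_map_eq_zero _).mpr fun f hf => ?_
    have h0 : T f = 0 := congrArg Subtype.val hf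
    rw [hT] at h0
    simp only [← mul_assoc, ← Finset.sum_mul, mul_eq_zero, pow_eq_zero_iff', P.h_ne, false_and,
      or_false] at h0
    have := Fintype.linearIndependent_iff.mp b.linearIndependent
      (fun i => (⟨φ (f i : F), AlgHom.mem_fieldRange.mpr ⟨_, rfl⟩⟩ : φ.fieldRange)) h0
    funext i
    exact Subtype.ext ((map_eq_zero φ).mp (congrArg Subtype.val (this i)))
  simpa [DivData.l, finrank_pi_fintype] using LinearMap.finrank_le_finrank_of_injective hinj

theorem le_mul (P : D.Pull φ c w) [FiniteDimensional φ.fieldRange F]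
    [Algebra.IsSeparable φ.fieldRange F] [∀ j, FiniteDimensional k (D.L j)]
    {b : Basis (Fin (finrank φ.fieldRange F)) φ.fieldRange F} {K : ℕ}
    (hb : ∀ i x, b i * φ (D.s (P.π x)) ^ (c * K) ∈ D.O x) (m : ℕ) :
    D.l (c * w * m) ≤ finrank φ.fieldRange F * D.l (c * (m + K)) := by
  let T : Fin (finrank φ.fieldRange F) → D.L (c * w * m) →ₗ[k] F := fun i =>
    φ.equivFieldRange.symm.toLinearMap.comp
      (((Algebra.trace φ.fieldRange F).restrictScalars k).comp
        ((LinearMap.mulLeft k ((P.h ^ m)⁻¹ * b i)).comp (D.L (c * w * m)).subtype))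
  have hT : ∀ i z, φ (T i z) =
      (Algebra.trace φ.fieldRange F ((P.h ^ m)⁻¹ * b i * (z : F)) : F) := fun i z =>
    congrArg Subtype.val (φ.equivFieldRange.apply_symm_apply _)
  have hmem : ∀ i z, T i z ∈ D.L (c * (m + K)) := fun i z => by
    refine P.exists_trace (fun x => ?_) _ (hT i z)
    have h2 := mul_mem (mul_mem (z.2 x) (pow_mem (P.rel x).1 m)) (hb i x)
    convert h2 using 1
    have hh := pow_ne_zero m P.h_ne
    have hs := pow_ne_zero (c * w * m) (D.s_ne x)
    rw [div_pow, mul_pow, ← pow_mul, ← pow_mul, mul_add, pow_add]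
    field_simp
  have hinj : Function.Injective
      (LinearMap.pi fun i => (T i).codRestrict _ (hmem i)) := by
    refine (injective_iff_map_eq_zero _).mpr fun z hz => Subtype.ext ?_
    have h1 : ∀ i, Algebra.traceForm φ.fieldRange F ((P.h ^ m)⁻¹ * (z : F)) (b i) = 0 := by
      intro i
      have h0 : T i z = 0 := congrArg Subtype.val (congrFun hz i)
      have := hT i z
      rw [h0, map_zero, mul_right_comm] at this
      exact Subtype.ext this.symm
    have h2 : (P.h ^ m)⁻¹ * (z : F) = 0 :=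
      (traceForm_nondegenerate φ.fieldRange F).1 _ fun y => by
        rw [← b.sum_repr y, map_sum]
        exact Finset.sum_eq_zero fun i _ => by rw [map_smul, h1 i, smul_zero]
    exact (mul_eq_zero.mp h2).resolve_left (inv_ne_zero (pow_ne_zero _ P.h_ne))
  simpa [DivData.l, finrank_pi_fintype] using LinearMap.finrank_le_finrank_of_injective hinj

/-- **The squeeze**: two-sided bounds for the degree in terms of `w ^ g`. -/
theorem degree_bounds (P : D.Pull φ c w) (hc : 0 < c) (hw : 0 < w)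
    [FiniteDimensional φ.fieldRange F] [Algebra.IsSeparable φ.fieldRange F]
    [∀ j, FiniteDimensional k (D.L j)]
    (gen : ∀ z : F, ∃ a : F, a ≠ 0 ∧ ∃ j, a ∈ D.L j ∧ a * z ∈ D.L j) {g C : ℕ}
    (lower : ∃ m₀, ∀ m, m₀ ≤ m → m ^ g ≤ C * D.l m)
    (upper : ∀ m, 0 < m → D.l m ≤ C * m ^ g) :
    finrank φ.fieldRange F ≤ C * C * 2 ^ g * w ^ g ∧
      w ^ g ≤ C * C * 2 ^ g * finrank φ.fieldRange F := by
  obtain ⟨b, K, hb⟩ := P.exists_basis hc gen
  obtain ⟨m₀, hm₀⟩ := lower
  set N := finrank φ.fieldRange F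
  set m := m₀ + K + 1
  have hcw : 0 < c * w := Nat.mul_pos hc hw
  have hle : m + K ≤ 2 * m := by omega
  constructor
  · refine Nat.le_of_mul_le_mul_right ?_ (show 0 < (c * m) ^ g from
      Nat.pow_pos (Nat.mul_pos hc (by omega)))
    calc N * (c * m) ^ g ≤ N * (C * D.l (c * m)) :=
          Nat.mul_le_mul_left _ (hm₀ _ (le_trans (by omega) (Nat.le_mul_of_pos_left m hc)))
      _ = C * (N * D.l (c * m)) := by ring
      _ ≤ C * D.l (c * w * (m + K)) := Nat.mul_le_mul_left _ (P.mul_le hb m)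
      _ ≤ C * (C * (c * w * (m + K)) ^ g) :=
          Nat.mul_le_mul_left _ (upper _ (Nat.mul_pos hcw (by omega)))
      _ ≤ C * (C * (c * w * (2 * m)) ^ g) := Nat.mul_le_mul_left _
          (Nat.mul_le_mul_left _ (Nat.pow_le_pow_left (Nat.mul_le_mul_left _ hle) _))
      _ = C * C * 2 ^ g * w ^ g * (c * m) ^ g := by simp only [mul_pow]; ring
  · refine Nat.le_of_mul_le_mul_right ?_ (show 0 < (c * m) ^ g from
      Nat.pow_pos (Nat.mul_pos hc (by omega)))
    calc w ^ g * (c * m) ^ g = (c * w * m) ^ g := by simp only [mul_pow]; ring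
      _ ≤ C * D.l (c * w * m) := hm₀ _ (le_trans (by omega) (Nat.le_mul_of_pos_left m hcw))
      _ ≤ C * (N * D.l (c * (m + K))) := Nat.mul_le_mul_left _ (P.le_mul hb m)
      _ ≤ C * (N * (C * (c * (m + K)) ^ g)) := Nat.mul_le_mul_left _
          (Nat.mul_le_mul_left _ (upper _ (Nat.mul_pos hc (by omega))))
      _ ≤ C * (N * (C * (c * (2 * m)) ^ g)) := Nat.mul_le_mul_left _ (Nat.mul_le_mul_left _
          (Nat.mul_le_mul_left _ (Nat.pow_le_pow_left (Nat.mul_le_mul_left _ hle) _)))
      _ = C * C * 2 ^ g * N * (c * m) ^ g := by simp only [mul_pow]; ring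

end Pull

end DivData

/-- Degrees multiply in compositions. -/
theorem finrank_fieldRange_comp (φ ψ : F →ₐ[k] F) :
    finrank (φ.comp ψ).fieldRange F = finrank φ.fieldRange F * finrank ψ.fieldRange F := by
  have h : (φ.comp ψ).fieldRange ≤ φ.fieldRange := by
    rintro z hz
    obtain ⟨v, rfl⟩ := AlgHom.mem_fieldRange.mp hz
    exact AlgHom.mem_fieldRange.mpr ⟨ψ v, rfl⟩
  let e : (φ.comp ψ).fieldRange →+* φ.fieldRange := (IntermediateField.inclusion h).toRingHom
  let : Algebra (φ.comp ψ).fieldRange φ.fieldRange := e.toAlgebra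
  have : IsScalarTower (φ.comp ψ).fieldRange φ.fieldRange F :=
    IsScalarTower.of_algebraMap_eq fun _ => rfl
  rw [← finrank_mul_finrank (φ.comp ψ).fieldRange φ.fieldRange F, mul_comm]
  congr 1
  let i : ψ.fieldRange ≃+* (φ.comp ψ).fieldRange :=
    (ψ.equivFieldRange.symm.trans (φ.comp ψ).equivFieldRange).toRingEquiv
  refine (Algebra.finrank_eq_of_equiv_equiv i φ.equivFieldRange.toRingEquiv ?_).symm
  ext t
  obtain ⟨v, rfl⟩ := ψ.equivFieldRange.surjective t
  simp [i, e, RingHom.algebraMap_toAlgebra]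

/-- The `j`-fold iterate has degree the `j`-th power. -/
theorem finrank_fieldRange_iterate (φ : F →ₐ[k] F) (ψ : ℕ → F →ₐ[k] F)
    (h0 : ψ 0 = AlgHom.id k F) (hs : ∀ j, ψ (j + 1) = φ.comp (ψ j)) (j : ℕ) :
    finrank (ψ j).fieldRange F = finrank φ.fieldRange F ^ j := by
  induction j with
  | zero =>
    rw [h0, pow_zero]
    have : (AlgHom.id k F).fieldRange = ⊤ := eq_top_iff.mpr fun z _ =>
      AlgHom.mem_fieldRange.mpr ⟨z, rfl⟩
    rw [this, IntermediateField.finrank_top]
  | succ j ih => rw [hs, finrank_fieldRange_comp, ih, pow_succ']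

theorem le_of_pow_le {N M B : ℕ} (hM : 0 < M) (h : ∀ j, N ^ j ≤ B * M ^ j) : N ≤ M := by
  by_contra hc
  rw [not_le] at hc
  obtain ⟨j, hj⟩ := pow_unbounded_of_one_lt (B : ℚ)
    ((one_lt_div (by exact_mod_cast hM)).mpr (by exact_mod_cast hc : (M : ℚ) < N))
  rw [div_pow, lt_div_iff₀ (by positivity)] at hj
  exact absurd (h j) (not_le.mpr (by exact_mod_cast hj))

/-- If the powers of `N` and `M` bound each other up to one constant, then `N = M`. -/
theorem eq_of_pow_le {N M B : ℕ} (hM : 0 < M) (h : ∀ j, N ^ j ≤ B * M ^ j)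
    (h' : ∀ j, M ^ j ≤ B * N ^ j) : N = M := by
  refine le_antisymm (le_of_pow_le hM h) (le_of_pow_le (B := B) ?_ h')
  rcases Nat.eq_zero_or_pos N with rfl | hN
  · have := h' 1
    simp only [pow_one, mul_zero] at this
    omega
  · exact hN

end FermatAgent.AV.Squeeze
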