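import Fermat.Agent.AV.Squeeze.Abstract

/-!
# The squeeze for divisors given on valuation rings of a function field

A divisor assigns to each valuation ring over `k` a local equation, compatibly with coarsening.
The squeeze then needs no geometry at all.
-/

set_option autoImplicit false

noncomputable section

namespace FermatAgent.AV.Squeeze

universe uk uF

variable (k : Type uk) (F : Type uF) [Field k] [Field F] [Algebra k F]

/-- The valuation rings of `F` over `k`. -/
abbrev ValOver : Type uF :=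
  {V : ValuationSubring F // ∀ r : k, algebraMap k F r ∈ V}

variable {k F}

/-- A valuation ring over `k` as a subalgebra. -/
def valAlg (V : ValOver k F) : Subalgebra k F :=
  { V.1.toSubring with algebraMap_mem' := V.2 }

theorem valAlg_intClosed (V : ValOver k F) (z : F) (hz : IsIntegral (valAlg V) z) :
    z ∈ valAlg V := by
  obtain ⟨y, hy⟩ := IsIntegrallyClosed.isIntegral_iff (R := V.1) (K := F).mp
    (show IsIntegral V.1 z from hz)
  exact hy ▸ y.2

/-- Restriction of a valuation ring along an endomorphism. -/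
def comapVal (φ : F →ₐ[k] F) (V : ValOver k F) : ValOver k F :=
  ⟨V.1.comap φ.toRingHom, fun r => by
    rw [ValuationSubring.mem_comap, AlgHom.toRingHom_eq_coe, RingHom.coe_coe, φ.commutes]
    exact V.2 r⟩

variable (d : ValOver k F → F) (hne : ∀ V, d V ≠ 0) (heff : ∀ V, d V ∈ V.1)

/-- An effective divisor given by local equations at all valuation rings. -/
def fieldData : DivData.{uk, uF, uF} k F where
  X := ValOver k F
  O := valAlg
  s := d
  s_ne := hne
  s_mem := heff
  intClosed := valAlg_intClosed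

theorem mem_fieldData_L {j : ℕ} {z : F} :
    z ∈ (fieldData d hne heff).L j ↔ ∀ V : ValOver k F, z * d V ^ j ∈ V.1 := Iff.rfl

variable {d hne heff}

/-- Pullback data from a linear equivalence `c φ^* D ~ c w D`. -/
def fieldPull (φ : F →ₐ[k] F) {c w : ℕ}
    (compat : ∀ V V' : ValOver k F, V.1 ≤ V'.1 → d V / d V' ∈ V'.1) (h : F) (h_ne : h ≠ 0)
    (rel : ∀ V, φ (d (comapVal φ V)) ^ c / (h * d V ^ (c * w)) ∈ V.1 ∧
      h * d V ^ (c * w) / φ (d (comapVal φ V)) ^ c ∈ V.1) :
    (fieldData d hne heff).Pull φ c w where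
  π := comapVal φ
  map_O _ _ hz := hz
  h := h
  h_ne := h_ne
  rel := rel
  centre Q W hW := by
    let Q' : ValOver k F := Q
    have hk : ∀ r : k, algebraMap k F r ∈ W := fun r => by
      rw [← φ.commutes r]; exact hW _ (Q'.2 r)
    exact ⟨⟨W, hk⟩, fun z hz => hz, compat Q' (comapVal φ ⟨W, hk⟩) fun z hz => hW z hz⟩

theorem exists_mem_L_of_adjoin {D : DivData.{uk, uF, uF} k F} {S : Set F}
    (hS : ∀ y ∈ S, ∃ j, y ∈ D.L j) {b : F} (hb : b ∈ Algebra.adjoin k S) : ∃ j, b ∈ D.L j := by
  induction hb using Algebra.adjoin_induction with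
  | mem y hy => exact hS y hy
  | algebraMap r =>
    exact ⟨0, by rw [Algebra.algebraMap_eq_smul_one]; exact Submodule.smul_mem _ r (D.one_mem_L 0)⟩
  | add x y _ _ hx hy =>
    obtain ⟨i, hi⟩ := hx
    obtain ⟨j, hj⟩ := hy
    exact ⟨max i j, add_mem (DivData.L_mono _ (le_max_left _ _) hi)
      (DivData.L_mono _ (le_max_right _ _) hj)⟩
  | mul x y _ _ hx hy =>
    obtain ⟨i, hi⟩ := hx
    obtain ⟨j, hj⟩ := hy
    exact ⟨i + j, D.mul_mem_L hi hj⟩

/-- Generation from generators of the field with bounded poles. -/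
theorem gen_of_adjoin {D : DivData.{uk, uF, uF} k F} {S : Set F}
    (hS : ∀ y ∈ S, ∃ j, y ∈ D.L j) (hF : IntermediateField.adjoin k S = ⊤) (z : F) :
    ∃ a : F, a ≠ 0 ∧ ∃ j, a ∈ D.L j ∧ a * z ∈ D.L j := by
  obtain ⟨r, hr, s, hs, rfl⟩ := IntermediateField.mem_adjoin_iff_div.mp
    (hF ▸ IntermediateField.mem_top : z ∈ IntermediateField.adjoin k S)
  by_cases hs0 : s = 0
  · exact ⟨1, one_ne_zero, 0, D.one_mem_L 0, by simp [hs0]⟩
  obtain ⟨i, hi⟩ := exists_mem_L_of_adjoin hS hr
  obtain ⟨j, hj⟩ := exists_mem_L_of_adjoin hS hs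
  exact ⟨s, hs0, max i j, DivData.L_mono _ (le_max_right _ _) hj, by
    rw [mul_div_cancel₀ _ hs0]; exact DivData.L_mono _ (le_max_left _ _) hi⟩

end FermatAgent.AV.Squeeze
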