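import Fermat.Agent.AV.Calc
import Fermat.Agent.AV.Squeeze.Field
import Fermat.Agent.AV.Bound.Glue

/-!
# The degree squeeze for big divisor classes

An endomorphism of a function field multiplying a big divisor class by `a`, up to torsion, has
degree comparable to `a ^ g`.
-/

set_option autoImplicit false

noncomputable section

universe u

namespace FermatAgent.AV

open Squeeze

variable {K : Type u} [Field K] {F : Type u} [Field F] [Algebra K F]

/-- The squeeze data of an effective divisor. -/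
def squeezeData (D : vDiv K F) (heff : ∀ V : KVal K F, (D.1 V : F) ∈ V.1) :
    DivData.{u, u, u} K F :=
  fieldData (k := K) (fun V => (D.1 V : F)) (fun _ => Units.ne_zero _) heff

theorem squeezeData_L (D : vDiv K F) (heff : ∀ V : KVal K F, (D.1 V : F) ∈ V.1) (j : ℕ) :
    (squeezeData D heff).L j = vL (D ^ j) := by
  ext z
  rw [squeezeData, mem_fieldData_L, mem_vL]
  exact forall_congr' fun V => by simp

theorem coe_mem_of_unitGroup {V : ValuationSubring F} {x : Fˣ} (hx : x ∈ V.unitGroup) :
    (x : F) ∈ V :=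
  (V.valuation_le_one_iff _).mp (le_of_eq hx)

theorem coe_res_ofHom (φ : F →ₐ[K] F) (D : vDiv K F) (W : KVal K F) :
    ((((Spot.ofHom φ).res D).1 W : Fˣ) : F) =
      φ (D.1 ((Spot.ofHom φ).pull W) : F) / φ (D.1 (Spot.ofHom φ).kVal : F) := by
  rw [Spot.coe_res_apply, Spot.resFun, Spot.coe_unitRed _ _ (ValuationSubring.mem_top _)]
  exact (congrArg φ (Units.val_div_eq_div_val _ _)).trans (map_div₀ φ _ _)

/-- The pullback data given by a torsion class relation. -/
theorem exists_squeeze_pull (φ : F →ₐ[K] F) (D : vDiv K F)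
    (heff : ∀ V : KVal K F, (D.1 V : F) ∈ V.1) {a : ℕ}
    (h : IsTors (cls ((Spot.ofHom φ).res D) / cls D ^ a)) :
    ∃ c, 0 < c ∧ Nonempty ((squeezeData D heff).Pull φ c a) := by
  obtain ⟨m, hm, h1⟩ := h
  rw [← QuotientGroup.mk_pow, ← QuotientGroup.mk_div, ← QuotientGroup.mk_pow] at h1
  obtain ⟨h0, hh⟩ := (QuotientGroup.eq_one_iff _).mp h1
  set H : F := (h0 : F) * φ (D.1 (Spot.ofHom φ).kVal : F) ^ m
  refine ⟨m, hm, ⟨fieldPull (k := K) φ
    (fun V V' hle => by simpa using coe_mem_of_unitGroup (D.2 V V' hle))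
    H (mul_ne_zero (Units.ne_zero _) (pow_ne_zero _ ((map_ne_zero φ).mpr (Units.ne_zero _))))
    fun V => ?_⟩⟩
  have e : comapVal φ V = (Spot.ofHom φ).pull V := Subtype.ext (Spot.pull_ofHom φ V).symm
  have key : (((((Spot.ofHom φ).res D / D ^ a) ^ m).1 V / h0 : Fˣ) : F) =
      φ (D.1 ((Spot.ofHom φ).pull V) : F) ^ m /
        (H * (D.1 V : F) ^ (m * a)) := by
    simp only [SubgroupClass.coe_pow, Subgroup.coe_div, Pi.pow_apply, Pi.div_apply,
      Units.val_div_eq_div_val, Units.val_pow_eq_pow_val, coe_res_ofHom]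
    rw [div_pow, div_pow, ← pow_mul, div_div, div_div, mul_comm a m]
    congr 1
    simp only [H]
    ring
  rw [e]
  refine ⟨?_, ?_⟩
  · rw [← key]
    exact coe_mem_of_unitGroup (hh V)
  · rw [← inv_div, ← key, ← Units.val_inv_eq_inv_val]
    exact coe_mem_of_unitGroup (inv_mem (hh V))

/-- **The degree squeeze**: over an algebraically closed field a finite separable endomorphism
multiplying a big divisor class by `a` up to torsion has degree between `a ^ g / C` and
`C a ^ g`, with `C` depending only on the divisor. -/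
theorem degreeSqueeze [IsAlgClosed K] (F : Type u) [Field F] [Algebra K F]
    [Algebra.EssFiniteType K F] (g : ℕ) (hg : Algebra.trdeg K F = g) (D : vDiv K F) (hD : IsBig D) :
    ∃ C : ℕ, ∀ (φ : F →ₐ[K] F) (a : ℕ), FiniteDimensional φ.fieldRange F →
      Algebra.IsSeparable φ.fieldRange F → 0 < a →
      IsTors (cls ((Spot.ofHom φ).res D) / cls D ^ a) →
        Module.finrank φ.fieldRange F ≤ C * a ^ g ∧
          a ^ g ≤ C * Module.finrank φ.fieldRange F := by
  obtain ⟨C, -, hfin, hup, hlow⟩ := growthBounds F g hg D hD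
  refine ⟨C * C * 2 ^ g, fun φ a hφ hsep ha htors => ?_⟩
  obtain ⟨c, hc, ⟨P⟩⟩ := exists_squeeze_pull φ D hD.effective htors
  have hL : ∀ j, (squeezeData D hD.effective).L j = vL (D ^ j) := squeezeData_L D hD.effective
  have hfin' : ∀ j, FiniteDimensional K ((squeezeData D hD.effective).L j) := fun j =>
    (hL j).symm ▸ hfin j
  have gen : ∀ z : F, ∃ b : F, b ≠ 0 ∧ ∃ j, b ∈ (squeezeData D hD.effective).L j ∧
      b * z ∈ (squeezeData D hD.effective).L j := by
    obtain ⟨y, hy, hyL⟩ := hD.gens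
    exact gen_of_adjoin (fun b hb => ⟨1, by rw [hL 1, pow_one]; exact hyL b hb⟩) hy
  have := hφ
  have := hsep
  refine P.degree_bounds hc ha gen ⟨1, fun m hm => ?_⟩ fun m hm => ?_
  · rw [DivData.l, hL]; exact hlow m hm
  · rw [DivData.l, hL]; exact hup m hm

end FermatAgent.AV
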